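import Mathlib

/-!
# Shared library `Red` — FROZEN INTERFACE (row S52, row-lead helper472)

**General reduction homomorphism for good reduction.**  `V` a valuation subring of a field `K`,
`W₀` a Weierstrass curve with coefficients in `V` and `Δ(W₀) ∈ Vˣ`.  Then reduction
`W₀(K) → W₀(κ_V)` is a group homomorphism: a point with coordinates in `V` goes to the point with
the residue classes as coordinates, every other point goes to `0`.

Definitions only (no `sorry`).  Deliverable: `theorem Fermat.Agent.Lib.Red.goodReduction :
GoodReduction` in `Fermat/Agent/Lib/Red/Main.lean`.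
Toolkit already on main (any valuation, long Weierstrass form): `Fermat/Agent/S05/{SameRed,FG,
GoodRed,XOnlyC1*}.lean`.
-/

set_option autoImplicit false

open WeierstrassCurve WeierstrassCurve.Affine WeierstrassCurve.Affine.Point

namespace Fermat.Agent.Lib.Red

universe u

/-- **GR** (frozen). -/
def GoodReduction : Prop :=
  ∀ (K : Type u) [Field K] [DecidableEq K] (V : ValuationSubring K)
    [DecidableEq (IsLocalRing.ResidueField V)] (W₀ : WeierstrassCurve V), IsUnit W₀.Δ →
    ∃ red : (W₀⁄K).Point →+ (W₀⁄(IsLocalRing.ResidueField V)).Point,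
      (∀ (x y : K) (h : (W₀⁄K).Nonsingular x y) (hx : x ∈ V) (hy : y ∈ V),
        ∃ h' : (W₀⁄(IsLocalRing.ResidueField V)).Nonsingular
            (IsLocalRing.residue V ⟨x, hx⟩) (IsLocalRing.residue V ⟨y, hy⟩),
          red (Point.some x y h) = Point.some _ _ h') ∧
      (∀ (x y : K) (h : (W₀⁄K).Nonsingular x y), x ∉ V → red (Point.some x y h) = 0)

end Fermat.Agent.Lib.Red
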