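import Fermat.Agent.Lib.Red.Statement
import Fermat.Agent.Lib.Red.H290.Main

/-!
# Shared library `Red`: the deliverable `goodReduction : GoodReduction` (piece GR of row S52)

Proof: `Fermat/Agent/Lib/Red/H290/*.lean` (helper290), on top of the landed S05 toolkit
(`SameRed`, `GoodRed`, `XId`, `C1b`).  The general form (any ring homomorphism `φ : V →+* κ` to a
field with kernel the maximal ideal, curves given by their coefficients) is
`Fermat.Agent.Lib.Red.H290.redHom`, with `red_eq_zero_iff`, `red_neg`, `red_add`,
`eq_of_red_eq_of_nsmul` (injectivity on `n`-torsion, `n` a unit) and `inKer_add` (`E₁` is a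
subgroup, any valuation).
-/

set_option autoImplicit false

namespace Fermat.Agent.Lib.Red

universe u

/-- **GR**: the reduction homomorphism for good reduction. -/
theorem goodReduction : GoodReduction.{u} := H290.goodReduction

end Fermat.Agent.Lib.Red
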